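import Fermat.Agent.S17.H977.UnramifiedDivision
import Fermat.Agent.S17.H857.WeakMW
import Fermat.Agent.S17.H126.StabilizerOpen
import Fermat.Agent.S17.H497.HermiteMinkowski

/-!
# S17 (helper977, deputy): assembly of the towers W and TOP from the pieces on main

Everything here is fully proved.  Landed pieces used: BASE-1 (`H126.stabilizer_open`),
W-KUM (`H857.weakMW_of`), W-HM (`H497.finite_unramified_fields`), W-UNR (`unramified_division_of`).

* `InertiaInjRedOutside N S₀` : the reduction input, required ONLY at the primes `ℓ ∤ N`, `ℓ ∉ S₀`.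
  Because W-KUM and W-HM work for an arbitrary finite set `S` of excluded primes, the row may
  exclude any finite set of inconvenient primes (e.g. `S₀ = {2, 3}`: then only `ℓ ≥ 5` is needed
  and no auxiliary level / `PullData` enters).
* `weakMW_of_inputs` : weak Mordell-Weil for the exponent `n` from G-TORS + G-DIV (for this `n`)
  and the reduction input.
* `fg_of_inputs` : the frozen statement S17 from G-TORS + G-DIV + reduction input + a descent
  height (tower H), all for ONE exponent `n`.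
-/

set_option autoImplicit false

noncomputable section

namespace Fermat.Agent.S17.H977

open ModularCurve AlgebraicCurve

/-- The reduction input of the tower W, outside a finite set `S₀` of primes. -/
def InertiaInjRedOutside (N : ℕ) [NeZero N] (S₀ : Finset ℕ) : Prop :=
  ∀ (ℓ : ℕ), ℓ.Prime → ¬ ℓ ∣ N → ℓ ∉ S₀ → ∀ A : ValuationSubring Qb, A.LiesOverPrime ℓ →
    ∃ (Y : Type) (_ : AddCommGroup Y) (red : JZero N →+ Y),
      (∀ τ ∈ A.inertiaSubgroupIn ℚ, ∀ x : JZero N, red (τ • x) = red x) ∧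
      (∀ m : ℕ, ¬ ℓ ∣ m → ∀ x : JZero N, m • x = 0 → red x = 0 → x = 0)

theorem InertiaInjRed.outside {N : ℕ} [NeZero N] (h : InertiaInjRed N) (S₀ : Finset ℕ) :
    InertiaInjRedOutside N S₀ :=
  fun ℓ hℓ hℓN _ A hA => h ℓ hℓ hℓN A hA

theorem inertiaInjRed_iff_outside_empty (N : ℕ) [NeZero N] :
    InertiaInjRed N ↔ InertiaInjRedOutside N ∅ :=
  ⟨fun h => h.outside ∅, fun h ℓ hℓ hℓN A hA => h ℓ hℓ hℓN (Finset.notMem_empty ℓ) A hA⟩

/-- W-UNR outside `S₀`. -/
theorem unramified_division_outside (N : ℕ) [NeZero N] (S₀ : Finset ℕ)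
    (hred : InertiaInjRedOutside N S₀)
    (n : ℕ) (ℓ : ℕ) (hℓ : ℓ.Prime) (hℓn : ¬ ℓ ∣ n * N) (hℓS : ℓ ∉ S₀)
    (A : ValuationSubring Qb) (hA : A.LiesOverPrime ℓ) (σ : GQ) (hσ : σ ∈ A.inertiaSubgroupIn ℚ)
    (y : JZero N) (hy : n • y ∈ FixedPoints.addSubgroup GQ (JZero N)) : σ • y = y := by
  have hℓN : ¬ ℓ ∣ N := fun h => hℓn (Dvd.dvd.mul_left h n)
  have hℓn' : ¬ ℓ ∣ n := fun h => hℓn (Dvd.dvd.mul_right h N)
  obtain ⟨Y, _, red, hin, hinj⟩ := hred ℓ hℓ hℓN hℓS A hA
  have hfix : σ • (n • y) = n • y := hy σ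
  have hz : n • (σ • y - y) = 0 := by
    have h1 : n • (σ • y) = n • y := by rw [← galois_smul_nsmul N σ n y]; exact hfix
    rw [nsmul_sub, h1, sub_self]
  have hr : red (σ • y - y) = 0 := by
    rw [map_sub, hin σ hσ y, sub_self]
  exact sub_eq_zero.mp (hinj n hℓn' _ hz hr)

/-- **Weak Mordell-Weil** for the exponent `n`, from G-TORS and G-DIV for this `n` and the
reduction input outside `S₀`. -/
theorem weakMW_of_inputs (N : ℕ) [NeZero N] (n : ℕ) (hn : n ≠ 0) (S₀ : Finset ℕ)
    (htors : Finite (Pic0.torsion Qb (modularFunctionFieldBar N) n))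
    (hdiv : ∀ x : JZero N, ∃ y : JZero N, n • y = x)
    (hred : InertiaInjRedOutside N S₀) :
    (nsmulAddMonoidHom n : FixedPoints.addSubgroup GQ (JZero N) →+
      FixedPoints.addSubgroup GQ (JZero N)).range.FiniteIndex := by
  classical
  refine Fermat.Agent.S17.H857.weakMW_of N n hn (Fermat.Agent.S17.H126.stabilizer_open N)
    htors hdiv ((n * N).primeFactors ∪ S₀) ?_
    (fun d => Fermat.Agent.S17.H497.finite_unramified_fields _ d)
  intro ℓ hℓ hℓS A hA σ hσ y hy
  have h1 : ℓ ∉ (n * N).primeFactors := fun h => hℓS (Finset.mem_union_left _ h)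
  have h2 : ℓ ∉ S₀ := fun h => hℓS (Finset.mem_union_right _ h)
  refine unramified_division_outside N S₀ hred n ℓ hℓ ?_ h2 A hA σ hσ y hy
  intro hdvd
  apply h1
  rw [Nat.mem_primeFactors]
  exact ⟨hℓ, hdvd, Nat.mul_ne_zero hn (NeZero.ne N)⟩

/-- **S17 from its four inputs** (all for ONE exponent `n ≥ 2`): G-TORS, G-DIV, the reduction
input outside a finite set of primes, and a descent height on the Mordell-Weil group. -/
theorem fg_of_inputs (N : ℕ) [NeZero N] (n : ℕ) (hn : n ≠ 0) (S₀ : Finset ℕ)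
    (htors : Finite (Pic0.torsion Qb (modularFunctionFieldBar N) n))
    (hdiv : ∀ x : JZero N, ∃ y : JZero N, n • y = x)
    (hred : InertiaInjRedOutside N S₀)
    (hH : ∃ (h : FixedPoints.addSubgroup GQ (JZero N) → ℝ) (a b c₀ : ℝ)
        (c : FixedPoints.addSubgroup GQ (JZero N) → ℝ), 0 ≤ a ∧ a < b ∧
      (∀ B : ℝ, {x : FixedPoints.addSubgroup GQ (JZero N) | h x ≤ B}.Finite) ∧
      (∀ g x : FixedPoints.addSubgroup GQ (JZero N), h x ≤ a * h (g + x) + c g) ∧
      (∀ x : FixedPoints.addSubgroup GQ (JZero N), b * h x - c₀ ≤ h (n • x))) :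
    AddGroup.FG ↥(FixedPoints.addSubgroup ((AlgebraicClosure ℚ) ≃ₐ[ℚ] (AlgebraicClosure ℚ))
      (JZero N)) := by
  obtain ⟨h, a, b, c₀, c, ha, hab, hfin, h2, h3⟩ := hH
  haveI : Northcott h := ⟨hfin⟩
  exact AddCommGroup.fg_of_descent ha hab (weakMW_of_inputs N n hn S₀ htors hdiv hred) h2 h3

/-- Variant with a quasi-parallelogram height (the output shape of route (H-D)): `q ≥ -c`,
`|q (x + y) + q (x - y) - 2 q x - 2 q y| ≤ C`, Northcott; exponent `n = 2`. -/
theorem fg_of_inputs_quadratic (N : ℕ) [NeZero N] (S₀ : Finset ℕ)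
    (htors : Finite (Pic0.torsion Qb (modularFunctionFieldBar N) 2))
    (hdiv : ∀ x : JZero N, ∃ y : JZero N, 2 • y = x)
    (hred : InertiaInjRedOutside N S₀)
    (q : FixedPoints.addSubgroup GQ (JZero N) → ℝ) (c C : ℝ)
    (hq0 : ∀ x, -c ≤ q x)
    (hpar : ∀ x y, |q (x + y) + q (x - y) - 2 * q x - 2 * q y| ≤ C)
    (hfin : ∀ B : ℝ, {x : FixedPoints.addSubgroup GQ (JZero N) | q x ≤ B}.Finite) :
    AddGroup.FG ↥(FixedPoints.addSubgroup ((AlgebraicClosure ℚ) ≃ₐ[ℚ] (AlgebraicClosure ℚ))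
      (JZero N)) := by
  refine fg_of_inputs N 2 two_ne_zero S₀ htors hdiv hred
    ⟨q, 2, 4, |q 0| + C, fun g => 2 * q g + C + c, by norm_num, by norm_num, hfin, ?_, ?_⟩
  · intro g x
    -- parallelogram for the pair (g + x, g): q (x + 2g) + q x = 2 q (g + x) + 2 q g + O(1)
    have h1 := hpar (g + x) g
    have e1 : g + x - g = x := by abel
    rw [e1] at h1
    have h2 := hq0 (g + x + g)
    have h3 := (abs_le.mp h1).2
    show q x ≤ 2 * q (g + x) + (2 * q g + C + c)
    linarith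
  · intro x
    have h1 := hpar x x
    have e1 : x - x = 0 := sub_self x
    have e2 : x + x = 2 • x := (two_nsmul x).symm
    rw [e1, e2] at h1
    have h3 := (abs_le.mp h1).1
    have h4 := le_abs_self (q 0)
    linarith

end Fermat.Agent.S17.H977
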