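import Fermat.Agent.S17.H977.UnramifiedDivision
import Fermat.Agent.S37.Core.Final
import Fermat.Agent.S29.M.Defs

/-!
# S17, piece W-UNR (helper977): adapters to the deliverables of rows S37 / S18 / S29

* `inertiaInjRed_of_weakRedData` : the hypothesis `H` of
  `Fermat.Agent.S37.Core.result_of_weakRedData` (a `WeakRedData` at some auxiliary level `M`
  together with a `PullData N M ℓ`, at every place over every `ℓ ∤ N`) implies `InertiaInjRed N`.
* `inertiaInjRed_of_redStatement` : `Fermat.Agent.S29.M.RedStatement` implies `InertiaInjRed N`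
  (product of the maps `red_p` over all primes `p ≠ ℓ`, `p`-primary induction).
* `unramified_division_of_weakRedData`, `unramified_division_of_redStatement` : W-UNR in the
  exact skeleton shape from either input.
-/

set_option autoImplicit false
set_option synthInstance.maxHeartbeats 400000

noncomputable section

namespace Fermat.Agent.S17.H977

open ModularCurve AlgebraicCurve

/-- From the final interface of row S37. -/
theorem inertiaInjRed_of_weakRedData (N : ℕ) [NeZero N]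
    (H : ∀ (ℓ : ℕ) (hℓ : ℓ.Prime), ¬ ℓ ∣ N →
      ∀ A : ValuationSubring (AlgebraicClosure ℚ), A.LiesOverPrime ℓ →
        ∀ σ₀ : AlgebraicClosure ℚ ≃ₐ[ℚ] AlgebraicClosure ℚ, A.IsFrobeniusAt σ₀ ℓ →
          haveI : NeZero ℓ := ⟨hℓ.ne_zero⟩
          ∃ (M : ℕ) (_ : NeZero M), Nonempty (Fermat.Agent.S37.Core.WeakRedData M A ℓ σ₀) ∧
            Nonempty (Fermat.Agent.S37.Core.PullData N M ℓ)) :
    InertiaInjRed N := by
  intro ℓ hℓ hℓN A hA
  obtain ⟨σ₀, hσ₀⟩ := Fermat.Agent.S37.H99.exists_isFrobeniusAt ℓ hℓ A hA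
  haveI : NeZero ℓ := ⟨hℓ.ne_zero⟩
  obtain ⟨M, hM, ⟨W⟩, ⟨Pd⟩⟩ := H ℓ hℓ hℓN A hA σ₀ hσ₀
  refine ⟨W.Y, W.instY, W.red.comp Pd.pull, ?_, ?_⟩
  · intro τ hτ x
    show W.red (Pd.pull (τ • x)) = W.red (Pd.pull x)
    rw [Pd.galois, W.inertia τ hτ]
  · intro m hm x hx h0
    refine Pd.inj_torsion m hm x hx ?_
    refine W.inj_torsion m hm _ ?_ h0
    rw [← map_nsmul, hx, map_zero]

/-- `p`-primary induction: an element killed by `m` all of whose "`p`-primary tests" vanish is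
zero. -/
theorem eq_zero_of_primary {G : Type*} [AddCommGroup G] (P : ℕ → Prop) (x : G)
    (htest : ∀ p : ℕ, p.Prime → P p → ∀ (k : ℕ) (m' : ℕ), p ^ k • (m' • x) = 0 →
      m' • x = 0)
    (m : ℕ) (hm0 : m ≠ 0) (hP : ∀ p : ℕ, p.Prime → p ∣ m → P p) (hx : m • x = 0) :
    x = 0 := by
  induction m using Nat.strong_induction_on with
  | _ m ih =>
    by_cases h1 : m = 1
    · subst h1
      simpa using hx
    · obtain ⟨p, hp, hpm⟩ := Nat.exists_prime_and_dvd h1
      obtain ⟨k, m', hpm', hmk⟩ := Nat.exists_eq_pow_mul_and_not_dvd hm0 p hp.ne_one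
      have hk : k ≠ 0 := by
        rintro rfl
        rw [pow_zero, one_mul] at hmk
        exact hpm' (hmk ▸ hpm)
      have hm'0 : m' ≠ 0 := by
        rintro rfl
        exact hm0 (by rw [hmk, mul_zero])
      have hm'lt : m' < m := by
        have h2 : 2 ≤ p ^ k := by
          calc 2 ≤ p := hp.two_le
            _ = p ^ 1 := (pow_one p).symm
            _ ≤ p ^ k := Nat.pow_le_pow_right hp.pos (Nat.one_le_iff_ne_zero.mpr hk)
        have h3 : 0 < m' := Nat.pos_of_ne_zero hm'0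
        rw [hmk]
        nlinarith
      have hx' : m' • x = 0 := by
        refine htest p hp (hP p hp hpm) k m' ?_
        rw [← mul_smul, ← hmk]
        exact hx
      exact ih m' hm'lt hm'0 (fun q hq hqm' => hP q hq (hmk ▸ Dvd.dvd.mul_left hqm' _)) hx'

/-- From the reduction statement of the S29 row (layer M). -/
theorem inertiaInjRed_of_redStatement (hRed : Fermat.Agent.S29.M.RedStatement)
    (N : ℕ) [NeZero N] : InertiaInjRed N := by
  classical
  intro ℓ hℓ hℓN A hA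
  have key : ∀ p : {p : ℕ // p.Prime ∧ p ≠ ℓ},
      ∃ (Y : Type) (_ : AddCommGroup Y) (red : JZero N →+ Y),
        (∀ τ ∈ A.inertiaSubgroupIn ℚ, ∀ x : JZero N, red (τ • x) = red x) ∧
        (∀ x : JZero N, (∃ n : ℕ, (p : ℕ) ^ n • x = 0) → red x = 0 → x = 0) := by
    rintro ⟨p, hp, hpℓ⟩
    have hdvd : ¬ ℓ ∣ N * p := by
      intro h
      rcases (Nat.Prime.dvd_mul hℓ).mp h with h | h
      · exact hℓN h
      · exact hpℓ ((Nat.prime_dvd_prime_iff_eq hℓ hp).mp h).symm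
    obtain ⟨Y, iY, red, h1, h2, -⟩ := hRed N p ℓ hℓ hdvd A hA
    exact ⟨Y, iY, red, h1, h2⟩
  choose Y iY red h1 h2 using key
  letI : ∀ p, AddCommGroup (Y p) := iY
  refine ⟨∀ p, Y p, inferInstance, AddMonoidHom.mk' (fun x p => red p x) ?_, ?_, ?_⟩
  · intro x y
    funext p
    exact map_add (red p) x y
  · intro τ hτ x
    funext p
    exact h1 p τ hτ x
  · intro m hm x hx h0
    have hm0 : m ≠ 0 := by
      rintro rfl
      exact hm (dvd_zero ℓ)
    refine eq_zero_of_primary (fun p => p ≠ ℓ) x ?_ m hm0 ?_ hx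
    · intro p hp hpℓ k m' hz
      refine h2 ⟨p, hp, hpℓ⟩ (m' • x) ⟨k, hz⟩ ?_
      have h0' : red ⟨p, hp, hpℓ⟩ x = 0 := congrFun h0 ⟨p, hp, hpℓ⟩
      rw [map_nsmul, h0', smul_zero]
    · intro p hp hpm hpℓ
      exact hm (hpℓ ▸ hpm)

/-- **W-UNR**, exact skeleton shape, from the final interface of row S37. -/
theorem unramified_division_of_weakRedData (N : ℕ) [NeZero N]
    (H : ∀ (ℓ : ℕ) (hℓ : ℓ.Prime), ¬ ℓ ∣ N →
      ∀ A : ValuationSubring (AlgebraicClosure ℚ), A.LiesOverPrime ℓ →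
        ∀ σ₀ : AlgebraicClosure ℚ ≃ₐ[ℚ] AlgebraicClosure ℚ, A.IsFrobeniusAt σ₀ ℓ →
          haveI : NeZero ℓ := ⟨hℓ.ne_zero⟩
          ∃ (M : ℕ) (_ : NeZero M), Nonempty (Fermat.Agent.S37.Core.WeakRedData M A ℓ σ₀) ∧
            Nonempty (Fermat.Agent.S37.Core.PullData N M ℓ))
    (hN : N.Prime) (hN5 : 5 ≤ N) (n : ℕ) (hn : n ≠ 0)
    (ℓ : ℕ) (hℓ : ℓ.Prime) (hℓn : ¬ ℓ ∣ n * N)
    (A : ValuationSubring Qb) (hA : A.LiesOverPrime ℓ) (σ : GQ) (hσ : σ ∈ A.inertiaSubgroupIn ℚ)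
    (y : JZero N) (hy : n • y ∈ FixedPoints.addSubgroup GQ (JZero N)) : σ • y = y :=
  unramified_division_of' N (inertiaInjRed_of_weakRedData N H) hN hN5 n hn ℓ hℓ hℓn A hA σ hσ y hy

/-- **W-UNR**, exact skeleton shape, from `S29.M.RedStatement`. -/
theorem unramified_division_of_redStatement (hRed : Fermat.Agent.S29.M.RedStatement)
    (N : ℕ) [NeZero N] (hN : N.Prime) (hN5 : 5 ≤ N) (n : ℕ) (hn : n ≠ 0)
    (ℓ : ℕ) (hℓ : ℓ.Prime) (hℓn : ¬ ℓ ∣ n * N)
    (A : ValuationSubring Qb) (hA : A.LiesOverPrime ℓ) (σ : GQ) (hσ : σ ∈ A.inertiaSubgroupIn ℚ)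
    (y : JZero N) (hy : n • y ∈ FixedPoints.addSubgroup GQ (JZero N)) : σ • y = y :=
  unramified_division_of' N (inertiaInjRed_of_redStatement hRed N) hN hN5 n hn ℓ hℓ hℓn A hA σ hσ
    y hy

end Fermat.Agent.S17.H977
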