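import Mathlib
import Fermat.Prelude.Def_ModularCurve_ArithmeticGalois
import Fermat.Prelude.Def_FLTPrelim_Ramification

/-!
# S17, piece W-UNR (helper977): division points of rational points are unramified

`unramified_division_of` is the EXACT skeleton statement `Skel.unramified_division`
(`origin/helper17:Fermat/Agent/S17/Skeleton.lean`) with one extra hypothesis
`hred : InertiaInjRed N`:

  at every place `A` of `ℚ̄` over a prime `ℓ ∤ N` there is an additive map `red : J₀(N) →+ Y`
  which is invariant under the inertia group at `A` and injective on torsion of order prime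
  to `ℓ`.

This is exactly what the rows S37/S18 produce (`Fermat.Agent.S37.Core.WeakRedData` composed with
`PullData`, or `Fermat.Agent.S29.M.RedStatement`); adapters are in `FromS37.lean`.
No divisibility of `J₀(N)(ℚ̄)` and no uniqueness of the place reduction is needed: for
`z = σ y - y` we have `n z = 0` and `red z = red (σ y) - red y = 0`.
-/

set_option autoImplicit false

noncomputable section

namespace Fermat.Agent.S17.H977

open ModularCurve AlgebraicCurve

/-- `ℚ̄` -/
abbrev Qb : Type := AlgebraicClosure ℚ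

/-- the absolute Galois group of `ℚ` -/
abbrev GQ : Type := Qb ≃ₐ[ℚ] Qb

/-- The input of W-UNR: good reduction of `J₀(N)` at every prime `ℓ ∤ N`, in the weak form
"there is an inertia-invariant additive map, injective on prime-to-`ℓ` torsion". -/
def InertiaInjRed (N : ℕ) [NeZero N] : Prop :=
  ∀ (ℓ : ℕ), ℓ.Prime → ¬ ℓ ∣ N → ∀ A : ValuationSubring Qb, A.LiesOverPrime ℓ →
    ∃ (Y : Type) (_ : AddCommGroup Y) (red : JZero N →+ Y),
      (∀ τ ∈ A.inertiaSubgroupIn ℚ, ∀ x : JZero N, red (τ • x) = red x) ∧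
      (∀ m : ℕ, ¬ ℓ ∣ m → ∀ x : JZero N, m • x = 0 → red x = 0 → x = 0)

/-- the Galois action commutes with multiplication by `n` -/
theorem galois_smul_nsmul (N : ℕ) (σ : GQ) (n : ℕ) (y : JZero N) :
    σ • (n • y) = n • (σ • y) :=
  map_nsmul (DistribMulAction.toAddMonoidHom (JZero N) σ) n y

/-- **W-UNR** from good reduction: if `n y` is rational and `ℓ ∤ n N`, then every element of an
inertia group at `ℓ` fixes `y`. -/
theorem unramified_division_of (N : ℕ) [NeZero N] (hred : InertiaInjRed N)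
    (n : ℕ) (ℓ : ℕ) (hℓ : ℓ.Prime) (hℓn : ¬ ℓ ∣ n * N)
    (A : ValuationSubring Qb) (hA : A.LiesOverPrime ℓ) (σ : GQ) (hσ : σ ∈ A.inertiaSubgroupIn ℚ)
    (y : JZero N) (hy : n • y ∈ FixedPoints.addSubgroup GQ (JZero N)) : σ • y = y := by
  have hℓN : ¬ ℓ ∣ N := fun h => hℓn (Dvd.dvd.mul_left h n)
  have hℓn' : ¬ ℓ ∣ n := fun h => hℓn (Dvd.dvd.mul_right h N)
  obtain ⟨Y, _, red, hin, hinj⟩ := hred ℓ hℓ hℓN A hA
  have hfix : σ • (n • y) = n • y := hy σ
  have hz : n • (σ • y - y) = 0 := by
    have h1 : n • (σ • y) = n • y := by rw [← galois_smul_nsmul N σ n y]; exact hfix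
    rw [nsmul_sub, h1, sub_self]
  have hr : red (σ • y - y) = 0 := by
    rw [map_sub, hin σ hσ y, sub_self]
  exact sub_eq_zero.mp (hinj n hℓn' _ hz hr)

/-- The exact skeleton shape (`Skel.unramified_division` with the extra hypothesis `hred`). -/
theorem unramified_division_of' (N : ℕ) [NeZero N] (hred : InertiaInjRed N)
    (_hN : N.Prime) (_hN5 : 5 ≤ N) (n : ℕ) (_hn : n ≠ 0)
    (ℓ : ℕ) (hℓ : ℓ.Prime) (hℓn : ¬ ℓ ∣ n * N)
    (A : ValuationSubring Qb) (hA : A.LiesOverPrime ℓ) (σ : GQ) (hσ : σ ∈ A.inertiaSubgroupIn ℚ)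
    (y : JZero N) (hy : n • y ∈ FixedPoints.addSubgroup GQ (JZero N)) : σ • y = y :=
  unramified_division_of N hred n ℓ hℓ hℓn A hA σ hσ y hy

end Fermat.Agent.S17.H977
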